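/-
Row 37 (S43), block OPS, sub-block PI (owner helper185).  ABSTRACT FIELD THEORY.

`α : F → F'` an embedding of fields over `K` (char. 0), `G` a finite group of `K`-automorphisms of `F'` whose fixed
field is `α F`.  Then `[F' : F] = |G|`, `α (Norm y) = ∏_{g ∈ G} g y`, `Norm (α f) = f ^ |G|`; cyclic form
(`G = ⟨δ⟩`, `δ` of order `m`): `α (Norm y) = ∏_{j < m} δ^j y`.  The norm is equivariant for semilinear automorphisms.
-/
import Fermat.Agent.S37.HeckeInputs.Main
import Fermat.Agent.Lib.MulHecke.NormProd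

set_option autoImplicit false

namespace Fermat.Agent.S43.Ops.Pi

open AlgebraicCurve Fermat.Agent.S37.HeckeInputs

variable {K F F' : Type*} [Field K] [Field F] [Field F'] [Algebra K F] [Algebra K F']

/-- The norm is equivariant for (semilinear) ring automorphisms compatible with the embedding. -/
theorem normAlong_ringEquiv (α : F →ₐ[K] F') (s : F ≃+* F) (s' : F' ≃+* F')
    (h : ∀ f, s' (α f) = α (s f)) (y : F') : normAlong α (s' y) = s (normAlong α y) := by
  let _ := algebraAlong α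
  have h1 := Algebra.norm_eq_of_equiv_equiv (A₁ := F) (B₁ := F') (A₂ := F) (B₂ := F') s s'
    (RingHom.ext fun f => (h f).symm) y
  show Algebra.norm F (s' y) = s (Algebra.norm F y)
  rw [h1, RingEquiv.apply_symm_apply]

/-- `[F' : F] = |G|` (Artin). -/
theorem finrank_along_eq_card (α : F →ₐ[K] F') (G : Subgroup (F' ≃ₐ[K] F')) [Fintype G]
    (hfix : ∀ g ∈ G, ∀ f, g (α f) = α f) (hfixed : ∀ y, (∀ g ∈ G, g y = y) → ∃ f, α f = y) :
    @Module.finrank F F' _ _ (algebraAlong α).toModule = Fintype.card G := by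
  let _ := algebraAlong α
  have hmem : ∀ f, α f ∈ FixedPoints.subfield G F' := fun f g => hfix g.1 g.2 f
  let e₀ : F →+* FixedPoints.subfield G F' := α.toRingHom.codRestrict _ hmem
  have he₀ : Function.Bijective e₀ := by
    refine ⟨e₀.injective, ?_⟩
    rintro ⟨y, hy⟩
    obtain ⟨f, hf⟩ := hfixed y fun g hg => hy ⟨g, hg⟩
    exact ⟨f, Subtype.ext hf⟩
  let e₁ : F ≃+* FixedPoints.subfield G F' := RingEquiv.ofBijective e₀ he₀
  rw [← FixedPoints.finrank_eq_card G F']
  exact Algebra.finrank_eq_of_equiv_equiv e₁ (RingEquiv.refl F') (RingHom.ext fun f => rfl)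

variable [CharZero K]

/-- `α (Norm y) = ∏_{g ∈ G} g y`. -/
theorem map_normAlong_eq_prod (α : F →ₐ[K] F') (G : Subgroup (F' ≃ₐ[K] F')) [Fintype G]
    (hfix : ∀ g ∈ G, ∀ f, g (α f) = α f) (hfixed : ∀ y, (∀ g ∈ G, g y = y) → ∃ f, α f = y)
    (y : F') : α (normAlong α y) = ∏ g : G, (g : F' ≃ₐ[K] F') y := by
  let _ := algebraAlong α
  have hrank := finrank_along_eq_card α G hfix hfixed
  have hpos : 0 < Module.finrank F F' := by
    rw [hrank]
    exact Fintype.card_pos
  have : FiniteDimensional F F' := Module.finite_of_finrank_pos hpos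
  have : CharZero F := charZero_of_injective_algebraMap (algebraMap K F).injective
  let τ : G → F' →ₐ[F] F' := fun g =>
    { (g : F' ≃ₐ[K] F').toAlgHom.toRingHom with
      commutes' := fun f => hfix g.1 g.2 f }
  have hτ : Function.Injective τ := by
    intro g g' h
    refine Subtype.ext (AlgEquiv.ext fun z => ?_)
    exact DFunLike.congr_fun h z
  exact Lib.MulHecke.algebraMap_norm_eq_prod τ hτ hrank.symm y

omit [CharZero K] in
/-- `Norm (α f) = f ^ |G|`. -/
theorem normAlong_map_eq_pow (α : F →ₐ[K] F') (G : Subgroup (F' ≃ₐ[K] F')) [Fintype G]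
    (hfix : ∀ g ∈ G, ∀ f, g (α f) = α f) (hfixed : ∀ y, (∀ g ∈ G, g y = y) → ∃ f, α f = y)
    (f : F) : normAlong α (α f) = f ^ Fintype.card G := by
  let _ := algebraAlong α
  rw [← finrank_along_eq_card α G hfix hfixed]
  exact Algebra.norm_algebraMap f

/-! ### cyclic form -/

section Cyclic

variable (α : F →ₐ[K] F') (δ : F' ≃ₐ[K] F') {m : ℕ} (hm : 0 < m) (hord : orderOf δ = m)
  (hfix : ∀ f, δ (α f) = α f) (hfixed : ∀ y, δ y = y → ∃ f, α f = y)

include hfix in
omit [CharZero K] in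
theorem zpowers_fix (g : F' ≃ₐ[K] F') (hg : g ∈ Subgroup.zpowers δ) (f : F) : g (α f) = α f := by
  have hle : Subgroup.zpowers δ ≤ MulAction.stabilizer (F' ≃ₐ[K] F') (α f) := by
    rw [Subgroup.zpowers_le]
    exact hfix f
  exact hle hg

include hm hord hfix hfixed in
/-- `α (Norm y) = ∏_{j < m} δ^j y`. -/
theorem map_normAlong_eq_prod_pow (y : F') :
    α (normAlong α y) = ∏ j ∈ Finset.range m, (δ ^ j) y := by
  have hfin : IsOfFinOrder δ := orderOf_pos_iff.1 (hord ▸ hm)
  have : Fintype (Subgroup.zpowers δ) := Fintype.ofEquiv _ (finEquivZPowers hfin)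
  rw [map_normAlong_eq_prod α (Subgroup.zpowers δ) (zpowers_fix α δ hfix)
    (fun y hy => hfixed y (hy δ (Subgroup.mem_zpowers δ))) y, ← hord,
    ← Fin.prod_univ_eq_prod_range (fun j => (δ ^ j) y) (orderOf δ)]
  refine (Fintype.prod_equiv (finEquivZPowers hfin) _ _ fun j => ?_).symm
  rw [finEquivZPowers_apply]

include hm hord hfix hfixed in
omit [CharZero K] in
/-- `Norm (α f) = f ^ m`. -/
theorem normAlong_map_eq_pow_order (f : F) : normAlong α (α f) = f ^ m := by
  have hfin : IsOfFinOrder δ := orderOf_pos_iff.1 (hord ▸ hm)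
  have : Fintype (Subgroup.zpowers δ) := Fintype.ofEquiv _ (finEquivZPowers hfin)
  rw [normAlong_map_eq_pow α (Subgroup.zpowers δ) (zpowers_fix α δ hfix)
    (fun y hy => hfixed y (hy δ (Subgroup.mem_zpowers δ))) f, ← Nat.card_eq_fintype_card,
    Nat.card_zpowers, hord]

end Cyclic

end Fermat.Agent.S43.Ops.Pi
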