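/-
Row 37 (S43), block OPS, sub-block PI (owner helper185).  GENERIC LAYER on the Kummer modules.

`F₀ ≤ F₀'` two fields of `q`-expansions (`IsLvl`).  `piUp = π^* : W1 F₀ n → W1 F₀' n` (inclusion),
`piDown = π_* : W1 F₀' n → W1 F₀ n` (norm).
* equivariance for `rho` (Galois), for automorphisms of `FB F₀'` over `FB F₀`;
* `G` a finite group of automorphisms of `FB F₀'` with fixed field `FB F₀`:
  `piUp ∘ piDown = ∑_{g ∈ G} autW g`, `piDown ∘ piUp = |G|`; cyclic forms;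
* equivariance for multiplicative operators (`HeckeOp1`, `UOp`).
-/
import Fermat.Agent.S43.Ops.Pi.Abs
import Fermat.Agent.S43.Ops.U.Defs
import Fermat.Agent.S48.BB.T.LevelUp
import Fermat.Agent.S48.BB.T.KumNorm

set_option autoImplicit false

noncomputable section

namespace Fermat.Agent.S43.Ops.Pi

open ModularCurve AlgebraicCurve Fermat.Agent.S24 Fermat.Agent.S24.B Fermat.Agent.S48.BB
  Fermat.Agent.S48.BB.M Fermat.Agent.S48.BB.E Fermat.Agent.S48.BB.T Fermat.Agent.S48.BB.U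
  Fermat.Agent.S37.HeckeInputs
open Fermat.Agent.GAL.E (GQ qExpand_injective')
open scoped MatrixGroups

variable {F₀ F₀' : IntermediateField ℚ (LaurentSeries ℚ)} {H H' : Subgroup SL(2, ℤ)}
  {N N' : ℕ} [NeZero N] [NeZero N']

/-! ### functions -/

theorem alphaB_injective (hF : F₀ ≤ F₀') : Function.Injective (alphaB hF) :=
  (alphaB hF).toRingHom.injective

theorem galF_alphaB (hF : F₀ ≤ F₀') (σ : GQ) (u : FB F₀) :
    galF F₀' σ (alphaB hF u) = alphaB hF (galF F₀ σ u) := by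
  apply Subtype.ext
  rw [coe_galF, coe_alphaB, coe_alphaB, coe_galF]

theorem galF_normAlong (hF : F₀ ≤ F₀') (σ : GQ) (y : FB F₀') :
    normAlong (alphaB hF) (galF F₀' σ y) = galF F₀ σ (normAlong (alphaB hF) y) :=
  normAlong_ringEquiv (alphaB hF) (galF F₀ σ) (galF F₀' σ) (galF_alphaB hF σ) y

theorem normAlong_algEquiv (hF : F₀ ≤ F₀') (D : FB F₀' ≃ₐ[Kbar] FB F₀')
    (hD : ∀ u, D (alphaB hF u) = alphaB hF u) (y : FB F₀') :
    normAlong (alphaB hF) (D y) = normAlong (alphaB hF) y :=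
  normAlong_ringEquiv (alphaB hF) (RingEquiv.refl _) D.toRingEquiv hD y

theorem isKum_alphaB (hL : IsLvl F₀ H N) (hL' : IsLvl F₀' H' N') (hF : F₀ ≤ F₀') {n : ℕ}
    {u : FB F₀} (hu : IsKum (FB F₀) n u) : IsKum (FB F₀') n (alphaB hF u) := by
  have := isFF1 hL'
  exact dvd_ord_map (alphaB hF) (jB hL) (transcendental_jB hL) n u hu

theorem isKum_normAlong (hL : IsLvl F₀ H N) (hL' : IsLvl F₀' H' N') (hF : F₀ ≤ F₀') {n : ℕ}
    {y : FB F₀'} (hy : IsKum (FB F₀') n y) : IsKum (FB F₀) n (normAlong (alphaB hF) y) := by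
  have := isFF1 hL
  have := isFF1 hL'
  let _ := algebraAlong (alphaB hF)
  have h1 : IsScalarTower Kbar (FB F₀) (FB F₀') := isScalarTower_along (alphaB hF)
  have h2 : Module.Finite (FB F₀) (FB F₀') :=
    finiteAlong (alphaB hF) (jB hL) (transcendental_jB hL)
  exact dvd_ord_norm' (K := Kbar) (F := FB F₀) (F' := FB F₀') n y hy

/-! ### units and Kummer modules -/

/-- pull-back on units -/
def upU (hF : F₀ ≤ F₀') : (FB F₀)ˣ →* (FB F₀')ˣ := Units.map (alphaB hF : FB F₀ →* FB F₀')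

/-- norm on units -/
def dnU (hF : F₀ ≤ F₀') : (FB F₀')ˣ →* (FB F₀)ˣ := Units.map (normAlong (alphaB hF))

theorem coe_upU (hF : F₀ ≤ F₀') (u : (FB F₀)ˣ) : ((upU hF u : (FB F₀')ˣ) : FB F₀') = alphaB hF u :=
  rfl

theorem coe_dnU (hF : F₀ ≤ F₀') (y : (FB F₀')ˣ) :
    ((dnU hF y : (FB F₀)ˣ) : FB F₀) = normAlong (alphaB hF) y := rfl

/-- The pair of levels. -/
structure Pair (F₀ F₀' : IntermediateField ℚ (LaurentSeries ℚ)) : Prop where
  le : F₀ ≤ F₀'
  up : ∀ (n : ℕ) (u : FB F₀), IsKum (FB F₀) n u → IsKum (FB F₀') n (alphaB le u)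
  dn : ∀ (n : ℕ) (y : FB F₀'), IsKum (FB F₀') n y → IsKum (FB F₀) n (normAlong (alphaB le) y)

theorem pair_of_isLvl (hL : IsLvl F₀ H N) (hL' : IsLvl F₀' H' N') (hF : F₀ ≤ F₀') :
    Pair F₀ F₀' :=
  ⟨hF, fun _ _ hu => isKum_alphaB hL hL' hF hu, fun _ _ hy => isKum_normAlong hL hL' hF hy⟩

variable (X : Pair F₀ F₀')

/-- `π^*` on the Kummer modules. -/
def piUp (n : ℕ) : W1 F₀ n →+ W1 F₀' n := mapW (upU X.le) fun u hu => X.up n u hu

/-- `π_*` on the Kummer modules. -/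
def piDown (n : ℕ) : W1 F₀' n →+ W1 F₀ n := mapW (dnU X.le) fun y hy => X.dn n y hy

theorem piUp_cls {n : ℕ} (u : kum (FB F₀) n) :
    piUp X n (cls u) = cls (⟨upU X.le (u : (FB F₀)ˣ), X.up n _ u.2⟩ : kum (FB F₀') n) :=
  mapW_cls _ _ u

theorem piDown_cls {n : ℕ} (y : kum (FB F₀') n) :
    piDown X n (cls y) = cls (⟨dnU X.le (y : (FB F₀')ˣ), X.dn n _ y.2⟩ : kum (FB F₀) n) :=
  mapW_cls _ _ y

/-! ### Galois -/

theorem rho_piUp (n : ℕ) (σ : GQ) (x : W1 F₀ n) :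
    rho F₀' n σ (piUp X n x) = piUp X n (rho F₀ n σ x) := by
  obtain ⟨u, rfl⟩ := cls_surjective x
  rw [piUp_cls, rho_cls, rho_cls, piUp_cls]
  refine congrArg cls (Subtype.ext (Units.ext ?_))
  exact galF_alphaB X.le σ _

theorem rho_piDown (n : ℕ) (σ : GQ) (x : W1 F₀' n) :
    rho F₀ n σ (piDown X n x) = piDown X n (rho F₀' n σ x) := by
  obtain ⟨u, rfl⟩ := cls_surjective x
  rw [piDown_cls, rho_cls, rho_cls, piDown_cls]
  refine congrArg cls (Subtype.ext (Units.ext ?_))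
  exact (galF_normAlong X.le σ _).symm

/-! ### automorphisms over `FB F₀` -/

theorem autW_piUp (n : ℕ) (D : FB F₀' ≃ₐ[Kbar] FB F₀')
    (hD : ∀ u, D (alphaB X.le u) = alphaB X.le u) (x : W1 F₀ n) :
    autW D n (piUp X n x) = piUp X n x := by
  obtain ⟨u, rfl⟩ := cls_surjective x
  rw [piUp_cls, autW_cls]
  refine congrArg cls (Subtype.ext (Units.ext ?_))
  exact hD _

theorem piDown_autW (n : ℕ) (D : FB F₀' ≃ₐ[Kbar] FB F₀')
    (hD : ∀ u, D (alphaB X.le u) = alphaB X.le u) (x : W1 F₀' n) :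
    piDown X n (autW D n x) = piDown X n x := by
  obtain ⟨u, rfl⟩ := cls_surjective x
  rw [autW_cls, piDown_cls, piDown_cls]
  refine congrArg cls (Subtype.ext (Units.ext ?_))
  exact normAlong_algEquiv X.le D hD _

theorem autW_pow (D : FB F₀' ≃ₐ[Kbar] FB F₀') (n j : ℕ) : autW (D ^ j) n = autW D n ^ j := by
  induction j with
  | zero => rw [pow_zero, pow_zero, autW_one]
  | succ j ih => rw [pow_succ, pow_succ, autW_mul, ih]

/-- the class of a finite product -/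
theorem cls_prod {F : Type*} [Field F] [Algebra Kbar F] {n : ℕ} {ι : Type*} (s : Finset ι)
    (f : ι → kum F n) : cls (∏ i ∈ s, f i) = ∑ i ∈ s, cls (f i) := by
  classical
  induction s using Finset.induction_on with
  | empty => rw [Finset.prod_empty, Finset.sum_empty, cls_one]
  | insert a s ha ih => rw [Finset.prod_insert ha, Finset.sum_insert ha, cls_mul, ih]

/-- `π^* π_* = ∑_{g ∈ G} g`. -/
theorem piUp_piDown (n : ℕ) (G : Subgroup (FB F₀' ≃ₐ[Kbar] FB F₀')) [Fintype G]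
    (hfix : ∀ g ∈ G, ∀ u, g (alphaB X.le u) = alphaB X.le u)
    (hfixed : ∀ y, (∀ g ∈ G, g y = y) → ∃ u, alphaB X.le u = y) (x : W1 F₀' n) :
    piUp X n (piDown X n x) = ∑ g : G, autW (g : FB F₀' ≃ₐ[Kbar] FB F₀') n x := by
  obtain ⟨u, rfl⟩ := cls_surjective x
  rw [piDown_cls, piUp_cls]
  simp only [autW_cls]
  rw [← cls_prod]
  refine congrArg cls (Subtype.ext (Units.ext ?_))
  rw [coe_upU, coe_dnU, map_normAlong_eq_prod (alphaB X.le) G hfix hfixed]
  simp only [Subgroup.val_finset_prod, Units.coe_prod, coe_autU]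

/-- `π_* π^* = |G|`. -/
theorem piDown_piUp (n : ℕ) (G : Subgroup (FB F₀' ≃ₐ[Kbar] FB F₀')) [Fintype G]
    (hfix : ∀ g ∈ G, ∀ u, g (alphaB X.le u) = alphaB X.le u)
    (hfixed : ∀ y, (∀ g ∈ G, g y = y) → ∃ u, alphaB X.le u = y) (x : W1 F₀ n) :
    piDown X n (piUp X n x) = Fintype.card G • x := by
  obtain ⟨u, rfl⟩ := cls_surjective x
  rw [piUp_cls, piDown_cls, ← cls_pow]
  refine congrArg cls (Subtype.ext (Units.ext ?_))
  rw [coe_dnU, coe_upU, normAlong_map_eq_pow (alphaB X.le) G hfix hfixed]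
  simp only [Subgroup.coe_pow, Units.val_pow_eq_pow_val]

/-- `π^* π_* = ∑_{j < m} δ^j` (cyclic form). -/
theorem piUp_piDown_pow (n : ℕ) (δ : FB F₀' ≃ₐ[Kbar] FB F₀') {m : ℕ} (hm : 0 < m)
    (hord : orderOf δ = m) (hfix : ∀ u, δ (alphaB X.le u) = alphaB X.le u)
    (hfixed : ∀ y, δ y = y → ∃ u, alphaB X.le u = y) (x : W1 F₀' n) :
    piUp X n (piDown X n x) = ∑ j ∈ Finset.range m, (autW δ n ^ j) x := by
  obtain ⟨u, rfl⟩ := cls_surjective x
  rw [piDown_cls, piUp_cls]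
  simp only [← autW_pow, autW_cls]
  rw [← cls_prod]
  refine congrArg cls (Subtype.ext (Units.ext ?_))
  rw [coe_upU, coe_dnU, map_normAlong_eq_prod_pow (alphaB X.le) δ hm hord hfix hfixed]
  simp only [Subgroup.val_finset_prod, Units.coe_prod, coe_autU]

/-- `π_* π^* = m` (cyclic form). -/
theorem piDown_piUp_order (n : ℕ) (δ : FB F₀' ≃ₐ[Kbar] FB F₀') {m : ℕ} (hm : 0 < m)
    (hord : orderOf δ = m) (hfix : ∀ u, δ (alphaB X.le u) = alphaB X.le u)
    (hfixed : ∀ y, δ y = y → ∃ u, alphaB X.le u = y) (x : W1 F₀ n) :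
    piDown X n (piUp X n x) = m • x := by
  obtain ⟨u, rfl⟩ := cls_surjective x
  rw [piUp_cls, piDown_cls, ← cls_pow]
  refine congrArg cls (Subtype.ext (Units.ext ?_))
  rw [coe_dnU, coe_upU, normAlong_map_eq_pow_order (alphaB X.le) δ hm hord hfix hfixed]
  simp only [Subgroup.coe_pow, Units.val_pow_eq_pow_val]

/-! ### multiplicative operators -/

/-- A multiplicative operator of `FB F₀'` which extends an operator of `FB F₀` and commutes with a generator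
of the Galois group commutes with the norm. -/
theorem normAlong_op (hF : F₀ ≤ F₀') (T : FB F₀ →* FB F₀) (T' : FB F₀' →* FB F₀')
    (hT : ∀ u, T' (alphaB hF u) = alphaB hF (T u))
    (δ : FB F₀' ≃ₐ[Kbar] FB F₀') {m : ℕ} (hm : 0 < m)
    (hord : orderOf δ = m) (hfix : ∀ u, δ (alphaB hF u) = alphaB hF u)
    (hfixed : ∀ y, δ y = y → ∃ u, alphaB hF u = y) (hδ : ∀ y, T' (δ y) = δ (T' y)) (y : FB F₀') :
    normAlong (alphaB hF) (T' y) = T (normAlong (alphaB hF) y) := by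
  apply alphaB_injective hF
  have hpow : ∀ (j : ℕ) (y : FB F₀'), T' ((δ ^ j) y) = (δ ^ j) (T' y) := by
    intro j
    induction j with
    | zero => intro y; rfl
    | succ j ih =>
      intro y
      rw [pow_succ, AlgEquiv.mul_apply, AlgEquiv.mul_apply, ih, hδ]
  rw [← hT, map_normAlong_eq_prod_pow (alphaB hF) δ hm hord hfix hfixed,
    map_normAlong_eq_prod_pow (alphaB hF) δ hm hord hfix hfixed, map_prod]
  exact Finset.prod_congr rfl fun j _ => (hpow j y).symm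

section Hecke

variable {l : ℕ} [NeZero l] (T₀ : HeckeOp1 F₀ l) (T₁ : HeckeOp1 F₀' l)

/-- `T_l` is compatible with the inclusion as soon as the diamonds are. -/
theorem heckeOp1_alphaB (hF : F₀ ≤ F₀') (hD : ∀ u, T₁.D (alphaB hF u) = alphaB hF (T₀.D u))
    (u : FB F₀) : T₁.T (alphaB hF u) = alphaB hF (T₀.T u) := by
  refine Subtype.ext (qExpand_injective' l ?_)
  rw [T₁.qExpand_T, hD, coe_alphaB, coe_alphaB, coe_alphaB, T₀.qExpand_T]

theorem TW_piUp (hD : ∀ u, T₁.D (alphaB X.le u) = alphaB X.le (T₀.D u)) (n : ℕ) (x : W1 F₀ n) :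
    T₁.TW n (piUp X n x) = piUp X n (T₀.TW n x) := by
  obtain ⟨u, rfl⟩ := cls_surjective x
  rw [piUp_cls, T₁.TW_cls, T₀.TW_cls, piUp_cls]
  refine congrArg cls (Subtype.ext (Units.ext ?_))
  exact heckeOp1_alphaB T₀ T₁ X.le hD _

theorem TW_piDown (hD : ∀ u, T₁.D (alphaB X.le u) = alphaB X.le (T₀.D u))
    (δ : FB F₀' ≃ₐ[Kbar] FB F₀') {m : ℕ} (hm : 0 < m)
    (hord : orderOf δ = m) (hfix : ∀ u, δ (alphaB X.le u) = alphaB X.le u)
    (hfixed : ∀ y, δ y = y → ∃ u, alphaB X.le u = y) (hδ : ∀ y, T₁.T (δ y) = δ (T₁.T y))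
    (n : ℕ) (x : W1 F₀' n) : T₀.TW n (piDown X n x) = piDown X n (T₁.TW n x) := by
  obtain ⟨u, rfl⟩ := cls_surjective x
  rw [piDown_cls, T₁.TW_cls, T₀.TW_cls, piDown_cls]
  refine congrArg cls (Subtype.ext (Units.ext ?_))
  exact (normAlong_op X.le T₀.T T₁.T (heckeOp1_alphaB T₀ T₁ X.le hD) δ hm hord hfix hfixed hδ _).symm

end Hecke

section Uq

open Fermat.Agent.S43.Ops.U

variable {q : ℕ} [NeZero q] (U₀ : UOp F₀ q) (U₁ : UOp F₀' q)

theorem uOp_alphaB (hF : F₀ ≤ F₀') (u : FB F₀) : U₁.U (alphaB hF u) = alphaB hF (U₀.U u) := by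
  refine Subtype.ext (qExpand_injective' q ?_)
  rw [U₁.qExpand_U, coe_alphaB, coe_alphaB, U₀.qExpand_U]

theorem UW_piUp (n : ℕ) (x : W1 F₀ n) : U₁.UW n (piUp X n x) = piUp X n (U₀.UW n x) := by
  obtain ⟨u, rfl⟩ := cls_surjective x
  rw [piUp_cls, U₁.UW_cls, U₀.UW_cls, piUp_cls]
  refine congrArg cls (Subtype.ext (Units.ext ?_))
  exact uOp_alphaB U₀ U₁ X.le _

theorem UW_piDown (δ : FB F₀' ≃ₐ[Kbar] FB F₀') {m : ℕ} (hm : 0 < m)
    (hord : orderOf δ = m) (hfix : ∀ u, δ (alphaB X.le u) = alphaB X.le u)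
    (hfixed : ∀ y, δ y = y → ∃ u, alphaB X.le u = y) (hδ : ∀ y, U₁.U (δ y) = δ (U₁.U y))
    (n : ℕ) (x : W1 F₀' n) : U₀.UW n (piDown X n x) = piDown X n (U₁.UW n x) := by
  obtain ⟨u, rfl⟩ := cls_surjective x
  rw [piDown_cls, U₁.UW_cls, U₀.UW_cls, piDown_cls]
  refine congrArg cls (Subtype.ext (Units.ext ?_))
  exact (normAlong_op X.le U₀.U U₁.U (uOp_alphaB U₀ U₁ X.le) δ hm hord hfix hfixed hδ _).symm

end Uq

end Fermat.Agent.S43.Ops.Pi

end
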