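/-
Row 37 (S43), block OPS, sub-block PI (owner helper185).  THE INSTANCE `F0 = full (q M) ≤ F1 = F1Q q M`.

* `dia_eq_one_iff`   : the kernel of the diamond action is `{±1}`;
* `orderOf_dia`      : for a generator `g` of `(ℤ/q)ˣ` (`q` an odd prime) `⟨g⟩` has order `(q - 1) / 2`;
* `pair q M`         : the pair of levels; `up q M n = π^*`, `dn q M n = π_*`;
* `up_dn`, `dn_up`, `dia_up`, `dn_dia`, `rho_up`, `rho_dn`, `TW_up`, `TW_dn`, `UW_up`, `UW_dn`.
-/
import Fermat.Agent.S43.Ops.Pi.Kum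
import Fermat.Agent.S43.Ops.Dia

set_option autoImplicit false

noncomputable section

namespace Fermat.Agent.S43.Ops.Pi

open ModularCurve AlgebraicCurve CongruenceSubgroup
open Fermat.Agent.S24 Fermat.Agent.S24.B Fermat.Agent.S48.A Fermat.Agent.S48.BB
  Fermat.Agent.S48.BB.M Fermat.Agent.S48.BB.E Fermat.Agent.S48.BB.T Fermat.Agent.S48.BB.U
  Fermat.Agent.S37.HeckeInputs Fermat.Agent.S43.Ops.U
open Fermat.Agent.GAL.E (GQ)
open scoped MatrixGroups

/-! ### group theory -/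

/-- A homomorphism from `(ℤ/q)ˣ` with kernel `{±1}` maps a generator to an element of order `(q-1)/2`. -/
theorem orderOf_map_gen {G : Type*} [Group G] {q : ℕ} [Fact q.Prime] (hq2 : q ≠ 2)
    (f : (ZMod q)ˣ →* G) (hker : ∀ d, f d = 1 ↔ d = 1 ∨ d = -1) (g : (ZMod q)ˣ)
    (hg : ∀ x, x ∈ Subgroup.zpowers g) : orderOf (f g) = (q - 1) / 2 := by
  have hq : q.Prime := Fact.out
  have hodd : q % 2 = 1 := hq.eq_two_or_odd.resolve_left hq2
  have hcard : orderOf g = q - 1 := by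
    rw [orderOf_eq_card_of_forall_mem_zpowers hg, Nat.card_eq_fintype_card, ZMod.card_units]
  have h2m : 2 * ((q - 1) / 2) = q - 1 := by omega
  have hsq : ∀ d : (ZMod q)ˣ, d ^ 2 = 1 → d = 1 ∨ d = -1 := by
    intro d hd
    have h1 : ((d : ZMod q)) ^ 2 = 1 := by
      rw [← Units.val_pow_eq_pow_val, hd, Units.val_one]
    rw [sq] at h1
    rcases mul_self_eq_one_iff.1 h1 with h | h
    · exact Or.inl (Units.ext h)
    · exact Or.inr (Units.ext (by rw [h]; simp))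
  apply Nat.dvd_antisymm
  · apply orderOf_dvd_of_pow_eq_one
    rw [← map_pow, hker]
    apply hsq
    rw [← pow_mul, mul_comm, h2m, ← hcard, pow_orderOf_eq_one]
  · have h1 : f (g ^ orderOf (f g)) = 1 := by rw [map_pow, pow_orderOf_eq_one]
    have h2 : (g ^ orderOf (f g)) ^ 2 = 1 := by
      rcases (hker _).1 h1 with h | h <;> rw [h] <;> simp
    rw [← pow_mul] at h2
    have h3 : q - 1 ∣ orderOf (f g) * 2 := hcard ▸ orderOf_dvd_of_pow_eq_one h2
    rw [← h2m, mul_comm] at h3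
    exact Nat.dvd_of_mul_dvd_mul_right (by norm_num) h3

variable (q M : ℕ) [NeZero q] [NeZero M]

/-- The kernel of the diamond action is `{±1}`. -/
theorem dia_eq_one_iff (d : (ZMod q)ˣ) : dia q M d = 1 ↔ d = 1 ∨ d = -1 := by
  constructor
  · intro h
    have h1 : (sg q M d)⁻¹ ∈ H1 q M := by
      apply mem_of_smul_Psi (hL1 q M)
      intro u
      rw [← Psi_dia_of d (sg_mem q M d) (dd_sg q M d), h]
      rfl
    have h2 := (mem_H1_iff'.1 h1).2
    have h3 := dd_mul_dd_inv (Gamma0_mul_le (sg_mem q M d))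
    rw [dd_sg] at h3
    rcases h2 with h2 | h2
    · rw [h2, mul_one] at h3
      exact Or.inl (Units.ext h3)
    · rw [h2, mul_neg, mul_one, neg_eq_iff_eq_neg] at h3
      exact Or.inr (Units.ext (by rw [h3]; simp))
  · rintro (rfl | rfl)
    · exact map_one _
    · exact dia_neg_one

/-- For a generator `g` of `(ℤ/q)ˣ` the diamond operator `⟨g⟩` has order `(q - 1) / 2`. -/
theorem orderOf_dia [Fact q.Prime] (hq2 : q ≠ 2) (g : (ZMod q)ˣ)
    (hg : ∀ x, x ∈ Subgroup.zpowers g) : orderOf (dia q M g) = (q - 1) / 2 :=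
  orderOf_map_gen hq2 (dia q M) (dia_eq_one_iff q M) g hg

theorem half_pos [Fact q.Prime] (hq2 : q ≠ 2) : 0 < (q - 1) / 2 := by
  have hq : q.Prime := Fact.out
  have := hq.two_le
  omega

/-- an element fixed by `⟨g⟩`, `g` a generator, is of level `Γ₀(q M)` -/
theorem exists_alphaB_eq_of_gen (g : (ZMod q)ˣ) (hg : ∀ x, x ∈ Subgroup.zpowers g)
    (y : FB (F1Q q M)) (hy : dia q M g y = y) :
    ∃ v : FB (modularFunctionFieldFull (q * M)), alphaB (F0_le_F1 q M) v = y := by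
  refine exists_alphaB_eq_of_dia y fun d => ?_
  have hle : Subgroup.zpowers (dia q M g) ≤
      MulAction.stabilizer (FB (F1Q q M) ≃ₐ[Kbar] FB (F1Q q M)) y := by
    rw [Subgroup.zpowers_le]
    exact hy
  obtain ⟨k, rfl⟩ := Subgroup.mem_zpowers_iff.1 (hg d)
  rw [map_zpow]
  exact hle (Subgroup.zpow_mem_zpowers _ k)

/-- The pair of levels `Γ₀(q M) ⊇ ±Γ₁(q) ∩ Γ₀(q M)`. -/
theorem pair : Pair (modularFunctionFieldFull (q * M)) (F1Q q M) :=
  pair_of_isLvl (hL0 q M) (hL1 q M) (F0_le_F1 q M)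

/-- `π^* : W1 F0 n → W1 F1 n`. -/
def up (n : ℕ) : W1 (modularFunctionFieldFull (q * M)) n →+ W1 (F1Q q M) n := piUp (pair q M) n

/-- `π_* : W1 F1 n → W1 F0 n`. -/
def dn (n : ℕ) : W1 (F1Q q M) n →+ W1 (modularFunctionFieldFull (q * M)) n := piDown (pair q M) n

variable {q M}

theorem rho_up (n : ℕ) (σ : GQ) (x : W1 (modularFunctionFieldFull (q * M)) n) :
    rho (F1Q q M) n σ (up q M n x) = up q M n (rho _ n σ x) := rho_piUp _ n σ x

theorem rho_dn (n : ℕ) (σ : GQ) (x : W1 (F1Q q M) n) :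
    rho _ n σ (dn q M n x) = dn q M n (rho (F1Q q M) n σ x) := rho_piDown _ n σ x

theorem dia_up (n : ℕ) (d : (ZMod q)ˣ) (x : W1 (modularFunctionFieldFull (q * M)) n) :
    autW (dia q M d) n (up q M n x) = up q M n x := autW_piUp _ n _ (dia_alphaB d) x

theorem dn_dia (n : ℕ) (d : (ZMod q)ˣ) (x : W1 (F1Q q M) n) :
    dn q M n (autW (dia q M d) n x) = dn q M n x := piDown_autW _ n _ (dia_alphaB d) x

section Gen

variable [Fact q.Prime] (hq2 : q ≠ 2) (g : (ZMod q)ˣ) (hg : ∀ x, x ∈ Subgroup.zpowers g)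

include hq2 hg

/-- `π^* π_* = ∑_{j < (q-1)/2} ⟨g⟩^j`. -/
theorem up_dn (n : ℕ) (x : W1 (F1Q q M) n) :
    up q M n (dn q M n x) = ∑ j ∈ Finset.range ((q - 1) / 2), (autW (dia q M g) n ^ j) x :=
  piUp_piDown_pow _ n (dia q M g) (half_pos q hq2) (orderOf_dia q M hq2 g hg) (dia_alphaB g)
    (exists_alphaB_eq_of_gen q M g hg) x

/-- `π_* π^* = (q-1)/2`. -/
theorem dn_up (n : ℕ) (x : W1 (modularFunctionFieldFull (q * M)) n) :
    dn q M n (up q M n x) = ((q - 1) / 2) • x :=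
  piDown_piUp_order _ n (dia q M g) (half_pos q hq2) (orderOf_dia q M hq2 g hg) (dia_alphaB g)
    (exists_alphaB_eq_of_gen q M g hg) x

end Gen

/-! ### Hecke operators -/

section Hecke

variable {l : ℕ} [NeZero l] (T₀ : HeckeOp1 (modularFunctionFieldFull (q * M)) l)
  (T₁ : HeckeOp1 (F1Q q M) l)

/-- `T_l π^* = π^* T_l` (the diamond of `T₀` is trivial, the diamond of `T₁` is a `dia`). -/
theorem TW_up (h₀ : T₀.D = 1) (d : (ZMod q)ˣ) (h₁ : T₁.D = dia q M d) (n : ℕ)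
    (x : W1 (modularFunctionFieldFull (q * M)) n) :
    T₁.TW n (up q M n x) = up q M n (T₀.TW n x) :=
  TW_piUp _ T₀ T₁ (fun u => by rw [h₀, h₁, dia_alphaB]; rfl) n x

/-- `T_l π_* = π_* T_l`. -/
theorem TW_dn [Fact q.Prime] (hq2 : q ≠ 2) (h₀ : T₀.D = 1) (d : (ZMod q)ˣ) (h₁ : T₁.D = dia q M d)
    (hc : ∀ (e : (ZMod q)ˣ) (y : FB (F1Q q M)), T₁.T (dia q M e y) = dia q M e (T₁.T y))
    (n : ℕ) (x : W1 (F1Q q M) n) : T₀.TW n (dn q M n x) = dn q M n (T₁.TW n x) := by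
  obtain ⟨g, hg⟩ := IsCyclic.exists_generator (α := (ZMod q)ˣ)
  exact TW_piDown _ T₀ T₁ (fun u => by rw [h₀, h₁, dia_alphaB]; rfl) (dia q M g)
    (half_pos q hq2) (orderOf_dia q M hq2 g hg) (dia_alphaB g) (exists_alphaB_eq_of_gen q M g hg)
    (hc g) n x

end Hecke

section Uq

variable {r : ℕ} [NeZero r] (U₀ : UOp (modularFunctionFieldFull (q * M)) r) (U₁ : UOp (F1Q q M) r)

theorem UW_up (n : ℕ) (x : W1 (modularFunctionFieldFull (q * M)) n) :
    U₁.UW n (up q M n x) = up q M n (U₀.UW n x) := UW_piUp _ U₀ U₁ n x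

theorem UW_dn [Fact q.Prime] (hq2 : q ≠ 2)
    (hc : ∀ (e : (ZMod q)ˣ) (y : FB (F1Q q M)), U₁.U (dia q M e y) = dia q M e (U₁.U y))
    (n : ℕ) (x : W1 (F1Q q M) n) : U₀.UW n (dn q M n x) = dn q M n (U₁.UW n x) := by
  obtain ⟨g, hg⟩ := IsCyclic.exists_generator (α := (ZMod q)ˣ)
  exact UW_piDown _ U₀ U₁ (dia q M g) (half_pos q hq2) (orderOf_dia q M hq2 g hg) (dia_alphaB g)
    (exists_alphaB_eq_of_gen q M g hg) (hc g) n x

end Uq

end Fermat.Agent.S43.Ops.Pi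

end
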