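/-
Row 37 (S43), block OPS, sub-block PI (owner helper185).  ATKIN-LEHNER AND `π^*`, `π_*`; bridges.

* `w0 hc : FB F0 ≃ₐ[ℚ̄] FB F0` : the restriction of helper297's `w hc` (level `F1Q q M`) to `FB F0`, `F0 = full (q M)`;
  `alphaB_w0`, `real_w0` (same matrix `wG hc`), `w0_w0`;
* `w_up : autW (w hc) (up x) = up (autW (w0 hc) x)`, `w_dn : autW (w0 hc) (dn x) = dn (autW (w hc) x)`;
* generic: an automorphism of `FB F₀'` normalising the group generated by `δ` descends;
* `piUp_eq_upW`, `piDown_eq_downW` : the maps of `Ops/New/Pi.lean` (helper227) are the same maps.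
-/
import Fermat.Agent.S43.Ops.Pi.Inst
import Fermat.Agent.S43.Ops.W.Defs
import Fermat.Agent.S43.Ops.New.Norm
import Fermat.Agent.S43.Ops.New.Pi

set_option autoImplicit false

noncomputable section

namespace Fermat.Agent.S43.Ops.Pi

open ModularCurve AlgebraicCurve CongruenceSubgroup
open Fermat.Agent.S24 Fermat.Agent.S24.B Fermat.Agent.S48.A Fermat.Agent.S48.BB
  Fermat.Agent.S48.BB.M Fermat.Agent.S48.BB.E Fermat.Agent.S48.BB.T Fermat.Agent.S48.BB.U
  Fermat.Agent.S37.HeckeInputs Fermat.Agent.GAL.Mult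
open Fermat.Agent.GAL.E (GQ)
open scoped MatrixGroups

/-! ### bridges -/

section Bridge

variable {F₀ F₀' : IntermediateField ℚ (LaurentSeries ℚ)} {H H' : Subgroup SL(2, ℤ)}
  {N N' : ℕ} [NeZero N] [NeZero N']

theorem piUp_eq_upW (hL : IsLvl F₀ H N) (hL' : IsLvl F₀' H' N') (hF : F₀ ≤ F₀') (n : ℕ) :
    piUp (pair_of_isLvl hL hL' hF) n = New.upW hL hL' hF n := rfl

theorem piDown_eq_downW (hL : IsLvl F₀ H N) (hL' : IsLvl F₀' H' N') (hF : F₀ ≤ F₀') (n : ℕ) :
    piDown (pair_of_isLvl hL hL' hF) n = New.downW hL hL' hF n := rfl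

/-- two proofs of `Pair` give the same maps -/
theorem piUp_congr (X X' : Pair F₀ F₀') (n : ℕ) : piUp X n = piUp X' n := rfl

theorem piDown_congr (X X' : Pair F₀ F₀') (n : ℕ) : piDown X n = piDown X' n := rfl

/-! ### automorphisms which descend -/

/-- equivariance of `π^*` for a pair of compatible automorphisms -/
theorem autW_piUp_of (X : Pair F₀ F₀') (D₀ : FB F₀ ≃ₐ[Kbar] FB F₀) (D : FB F₀' ≃ₐ[Kbar] FB F₀')
    (h : ∀ u, D (alphaB X.le u) = alphaB X.le (D₀ u)) (n : ℕ) (x : W1 F₀ n) :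
    autW D n (piUp X n x) = piUp X n (autW D₀ n x) := by
  obtain ⟨u, rfl⟩ := cls_surjective x
  rw [piUp_cls, autW_cls, autW_cls, piUp_cls]
  refine congrArg cls (Subtype.ext (Units.ext ?_))
  exact h _

/-- equivariance of `π_*` for a pair of compatible automorphisms -/
theorem autW_piDown_of (X : Pair F₀ F₀') (D₀ : FB F₀ ≃ₐ[Kbar] FB F₀) (D : FB F₀' ≃ₐ[Kbar] FB F₀')
    (h : ∀ u, D (alphaB X.le u) = alphaB X.le (D₀ u)) (n : ℕ) (x : W1 F₀' n) :
    autW D₀ n (piDown X n x) = piDown X n (autW D n x) := by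
  obtain ⟨u, rfl⟩ := cls_surjective x
  rw [piDown_cls, autW_cls, autW_cls, piDown_cls]
  refine congrArg cls (Subtype.ext (Units.ext ?_))
  exact (normAlong_ringEquiv (alphaB X.le) D₀.toRingEquiv D.toRingEquiv h _).symm

end Bridge

/-! ### the Atkin-Lehner involution -/

variable {q M : ℕ} [NeZero q] [NeZero M]

theorem exists_alphaB_eq_w (hc : Nat.Coprime q M) (v : FB (modularFunctionFieldFull (q * M))) :
    ∃ v' : FB (modularFunctionFieldFull (q * M)),
      alphaB (F0_le_F1 q M) v' = w hc (alphaB (F0_le_F1 q M) v) := by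
  refine exists_alphaB_eq_of_dia _ fun d => ?_
  have h := w_dia hc d⁻¹ (alphaB (F0_le_F1 q M) v)
  rw [inv_inv, dia_alphaB] at h
  exact h.symm

/-- the restriction of `w` to `FB F0`, as a homomorphism -/
def w0Hom (hc : Nat.Coprime q M) :
    FB (modularFunctionFieldFull (q * M)) →ₐ[Kbar] FB (modularFunctionFieldFull (q * M)) where
  toFun v := (exists_alphaB_eq_w hc v).choose
  map_one' := alphaB_injective (F0_le_F1 q M) (by
    rw [(exists_alphaB_eq_w hc _).choose_spec, map_one, map_one])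
  map_mul' a b := alphaB_injective (F0_le_F1 q M) (by
    rw [(exists_alphaB_eq_w hc _).choose_spec, map_mul, map_mul, map_mul,
      (exists_alphaB_eq_w hc _).choose_spec, (exists_alphaB_eq_w hc _).choose_spec])
  map_zero' := alphaB_injective (F0_le_F1 q M) (by
    rw [(exists_alphaB_eq_w hc _).choose_spec, map_zero, map_zero])
  map_add' a b := alphaB_injective (F0_le_F1 q M) (by
    rw [(exists_alphaB_eq_w hc _).choose_spec, map_add, map_add, map_add,
      (exists_alphaB_eq_w hc _).choose_spec, (exists_alphaB_eq_w hc _).choose_spec])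
  commutes' c := alphaB_injective (F0_le_F1 q M) (by
    rw [(exists_alphaB_eq_w hc _).choose_spec, AlgHom.commutes, AlgEquiv.commutes])

theorem alphaB_w0Hom (hc : Nat.Coprime q M) (v : FB (modularFunctionFieldFull (q * M))) :
    alphaB (F0_le_F1 q M) (w0Hom hc v) = w hc (alphaB (F0_le_F1 q M) v) :=
  (exists_alphaB_eq_w hc v).choose_spec

theorem w0Hom_w0Hom (hc : Nat.Coprime q M) (v : FB (modularFunctionFieldFull (q * M))) :
    w0Hom hc (w0Hom hc v) = v :=
  alphaB_injective (F0_le_F1 q M) (by rw [alphaB_w0Hom, alphaB_w0Hom, w_w])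

/-- **The Atkin-Lehner involution `w_q` of `FB F0`**, `F0 = full (q M)` (restriction of `w hc`). -/
def w0 (hc : Nat.Coprime q M) :
    FB (modularFunctionFieldFull (q * M)) ≃ₐ[Kbar] FB (modularFunctionFieldFull (q * M)) :=
  AlgEquiv.ofAlgHom (w0Hom hc) (w0Hom hc) (AlgHom.ext (w0Hom_w0Hom hc)) (AlgHom.ext (w0Hom_w0Hom hc))

theorem alphaB_w0 (hc : Nat.Coprime q M) (v : FB (modularFunctionFieldFull (q * M))) :
    alphaB (F0_le_F1 q M) (w0 hc v) = w hc (alphaB (F0_le_F1 q M) v) := alphaB_w0Hom hc v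

theorem w0_w0 (hc : Nat.Coprime q M) (v : FB (modularFunctionFieldFull (q * M))) :
    w0 hc (w0 hc v) = v := w0Hom_w0Hom hc v

/-- `w0` is `u ↦ u ∘ wMat`, for the same matrix as `w`. -/
theorem real_w0 (hc : Nat.Coprime q M) (v : FB (modularFunctionFieldFull (q * M))) :
    real (hL0 q M) (w0 hc v) = (wG hc)⁻¹ • real (hL0 q M) v := by
  rw [← New.real_alphaB (hL0 q M) (hL1 q M) (F0_le_F1 q M), alphaB_w0, real_w,
    New.real_alphaB (hL0 q M) (hL1 q M) (F0_le_F1 q M)]

/-- `w π^* = π^* w`. -/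
theorem w_up (hc : Nat.Coprime q M) (n : ℕ) (x : W1 (modularFunctionFieldFull (q * M)) n) :
    autW (w hc) n (up q M n x) = up q M n (autW (w0 hc) n x) :=
  autW_piUp_of (pair q M) (w0 hc) (w hc) (fun u => (alphaB_w0 hc u).symm) n x

/-- `w π_* = π_* w`. -/
theorem w_dn (hc : Nat.Coprime q M) (n : ℕ) (x : W1 (F1Q q M) n) :
    autW (w0 hc) n (dn q M n x) = dn q M n (autW (w hc) n x) :=
  autW_piDown_of (pair q M) (w0 hc) (w hc) (fun u => (alphaB_w0 hc u).symm) n x

theorem autW_w_w (hc : Nat.Coprime q M) (n : ℕ) (x : W1 (F1Q q M) n) :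
    autW (w hc) n (autW (w hc) n x) = x := by
  obtain ⟨u, rfl⟩ := cls_surjective x
  rw [autW_cls, autW_cls]
  refine congrArg cls (Subtype.ext (Units.ext ?_))
  exact w_w hc _

theorem autW_w0_w0 (hc : Nat.Coprime q M) (n : ℕ) (x : W1 (modularFunctionFieldFull (q * M)) n) :
    autW (w0 hc) n (autW (w0 hc) n x) = x := by
  obtain ⟨u, rfl⟩ := cls_surjective x
  rw [autW_cls, autW_cls]
  refine congrArg cls (Subtype.ext (Units.ext ?_))
  exact w0_w0 hc _

/-- `w ⟨d⟩ = ⟨d⟩⁻¹ w` on the Kummer module. -/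
theorem autW_w_dia (hc : Nat.Coprime q M) (d : (ZMod q)ˣ) (n : ℕ) (x : W1 (F1Q q M) n) :
    autW (w hc) n (autW (dia q M d) n x) = autW (dia q M d⁻¹) n (autW (w hc) n x) := by
  obtain ⟨u, rfl⟩ := cls_surjective x
  rw [autW_cls, autW_cls, autW_cls, autW_cls]
  refine congrArg cls (Subtype.ext (Units.ext ?_))
  exact w_dia hc d _

/-! ### `U_q^t = w U_q w` -/

section Ut

open Fermat.Agent.S43.Ops.U

variable (U₀ : UOp (modularFunctionFieldFull (q * M)) q) (U₁ : UOp (F1Q q M) q)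

/-- `π_* (w U_q w) = (w U_q w) π_*`. -/
theorem Ut_dn [Fact q.Prime] (hq2 : q ≠ 2) (hc : Nat.Coprime q M)
    (hU : ∀ (e : (ZMod q)ˣ) (y : FB (F1Q q M)), U₁.U (dia q M e y) = dia q M e (U₁.U y))
    (n : ℕ) (x : W1 (F1Q q M) n) :
    dn q M n (autW (w hc) n (U₁.UW n (autW (w hc) n x))) =
      autW (w0 hc) n (U₀.UW n (autW (w0 hc) n (dn q M n x))) := by
  rw [← w_dn, ← UW_dn U₀ U₁ hq2 hU, ← w_dn]

/-- `π^* (w U_q w) = (w U_q w) π^*`. -/
theorem Ut_up (hc : Nat.Coprime q M) (n : ℕ) (x : W1 (modularFunctionFieldFull (q * M)) n) :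
    up q M n (autW (w0 hc) n (U₀.UW n (autW (w0 hc) n x))) =
      autW (w hc) n (U₁.UW n (autW (w hc) n (up q M n x))) := by
  rw [w_up, UW_up U₀ U₁, w_up]

end Ut

end Fermat.Agent.S43.Ops.Pi

end
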